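import Mathlib
import Fermat.Agent.PT.Glob.GIface
import Fermat.Agent.PT.Loc.MC.H79Mu

/-!
# W3-PT / PT-GLOB-BR, leaf GLOB-MC-MU (helper52)

`h52g_gmcMu_of : GMCH90 → GMCMu`: a continuous `μ_p`-valued `2`-cochain `ζ ^ c` of `G_L`
(`L` a number field inside `ℚ̄`, `ζ ∈ L`) which is a continuous coboundary in `ℚ̄ˣ` is a continuous
coboundary in `ZMod p`.

Port of the local proof `h79m_mcMu_of` (helper79, `PT/Loc/MC/H79Mu.lean`), which is field-agnostic:
`ζ ^ c = ∂x`; then `x ^ p` is a continuous `1`-cocycle, hence `x(g) ^ p = g a / a` by Hilbert 90;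
choose `α ^ p = a`; `x'(g) = x(g) α / g α` has the same coboundary and `x'(g) ^ p = 1`, so
`x' = ζ ^ f` and `c = ∂f`.

The group-theoretic lemmas on exponents of roots of unity (`h79m_pow_val_injective`,
`h79m_pow_val_add`, `h79m_pow_val_natCast`, `h79m_expo`, `h79m_expo_spec`) are reused from the
local file (they are stated for an arbitrary commutative group).
-/

set_option autoImplicit false
set_option linter.style.haveILetI false

open scoped Classical

noncomputable section

namespace Fermat.Agent.PT.Glob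

open Fermat.Agent.Bridge Fermat.Agent.PT.Loc

variable {p : ℕ} [Fact p.Prime]

/-- a `p`-th root of unity in `ℚ̄ˣ` is a power of `ζ`. -/
theorem h52g_exists_expo {ζ u : Qbˣ} (hζ : IsPrimitiveRoot ζ p) (hu : u ^ p = 1) :
    ∃ k : ZMod p, u = ζ ^ k.val := by
  have hp : p.Prime := Fact.out
  haveI : NeZero p := ⟨hp.ne_zero⟩
  have hζ' : IsPrimitiveRoot (ζ : Qb) p := IsPrimitiveRoot.coe_units_iff.mpr hζ
  have hu' : (u : Qb) ^ p = 1 := by
    rw [← Units.val_pow_eq_pow_val, hu, Units.val_one]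
  obtain ⟨i, -, hi⟩ := hζ'.eq_pow_of_pow_eq_one hu'
  refine ⟨(i : ZMod p), ?_⟩
  rw [h79m_pow_val_natCast (p := p) hζ]
  apply Units.ext
  rw [Units.val_pow_eq_pow_val, hi]

/-- an element of `G_L` fixes the units lying in `L`. -/
theorem h52g_smul_eq_of_mem {L : NFd} {b : Qbˣ} (hb : (b : Qb) ∈ L) {g : GQ}
    (hg : g ∈ GU L) : g • b = b := by
  apply Units.ext
  exact hg ⟨(b : Qb), hb⟩

/-- the coboundary of a product. -/
theorem h52g_gmcob_mul (x y : GQ → Qbˣ) (g h : GQ) :
    gmcob (fun g => x g * y g) (g, h) = gmcob x (g, h) * gmcob y (g, h) := by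
  simp only [gmcob]
  rw [smul_mul', mul_div_mul_comm, mul_mul_mul_comm]

/-- the coboundary of a principal cochain `g ↦ α / g α` is trivial. -/
theorem h52g_gmcob_principal (α : Qbˣ) (g h : GQ) :
    gmcob (fun g => α / g • α) (g, h) = 1 := by
  simp only [gmcob]
  rw [smul_div', mul_smul]
  simp

/-- **GMC-MU** from Hilbert 90 (`GMCH90`). -/
theorem h52g_gmcMu_of (h90 : GMCH90) : GMCMu := by
  intro p _ L _ ζ hζL hζ' c _ _ hcoh
  have hp : p.Prime := Fact.out
  haveI : NeZero p := ⟨hp.ne_zero⟩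
  have hζ : IsPrimitiveRoot ζ p := IsPrimitiveRoot.coe_units_iff.mp hζ'
  obtain ⟨x, ⟨F, hF, hLF, hxF⟩, hx⟩ := hcoh
  -- the coboundary of `x` on `G_L`
  have hx' : ∀ g ∈ GU L, ∀ h ∈ GU L, gmcob x (g, h) = ζ ^ (c (g, h)).val := by
    intro g hg h hh
    have := hx g hg h hh
    rw [Pi.one_apply, one_mul] at this
    exact this.symm
  -- `x ^ p` is a continuous cocycle
  have hy1 : GMCoc1 L (fun g => x g ^ p) := by
    intro g hg h hh
    have h1 := congrArg (· ^ p) (hx' g hg h hh)
    simp only [gmcob] at h1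
    rw [← pow_mul, mul_comm _ p, pow_mul, hζ.pow_eq_one, one_pow, mul_pow, div_pow] at h1
    simp only
    rw [smul_pow']
    rw [div_mul_eq_mul_div, div_eq_one] at h1
    exact h1.symm
  have hy2 : GCont1 L (fun g => x g ^ p) :=
    ⟨F, hF, hLF, fun g hg s hs => by simp only; rw [hxF g hg s hs]⟩
  obtain ⟨a, ha⟩ := h90 L (fun g => x g ^ p) hy1 hy2
  -- a `p`-th root of `a`
  obtain ⟨α₀, hα₀⟩ := IsAlgClosed.exists_pow_nat_eq (a : Qb) hp.pos
  have hα₀0 : α₀ ≠ 0 := by
    rintro rfl
    rw [zero_pow hp.ne_zero] at hα₀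
    exact a.ne_zero hα₀.symm
  obtain ⟨α, hαval⟩ : ∃ α : Qbˣ, (α : Qb) = α₀ := ⟨Units.mk0 α₀ hα₀0, rfl⟩
  have hαp : α ^ p = a := by
    apply Units.ext
    rw [Units.val_pow_eq_pow_val, hαval]
    exact hα₀
  -- the corrected cochain
  have hx'p : ∀ g ∈ GU L, (x g * (α / g • α)) ^ p = 1 := by
    intro g hg
    have h1 : x g ^ p = g • a / a := ha g hg
    rw [mul_pow, div_pow, h1, ← smul_pow', hαp]
    simp
  have hx'cob : ∀ g ∈ GU L, ∀ h ∈ GU L,
      gmcob (fun g => x g * (α / g • α)) (g, h) = ζ ^ (c (g, h)).val := by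
    intro g hg h hh
    rw [h52g_gmcob_mul x (fun g => α / g • α) g h, h52g_gmcob_principal, mul_one]
    exact hx' g hg h hh
  -- the exponent
  have hspec : ∀ g ∈ GU L, x g * (α / g • α)
      = ζ ^ (h79m_expo p ζ (x g * (α / g • α))).val := fun g hg =>
    h79m_expo_spec (h52g_exists_expo hζ (hx'p g hg))
  -- continuity data for `α`
  have halg : IsIntegral ℚ α₀ := (AlgebraicClosure.isAlgebraic ℚ).isIntegral.isIntegral α₀
  haveI : FiniteDimensional ℚ (IntermediateField.adjoin ℚ {α₀}) :=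
    IntermediateField.adjoin.finiteDimensional halg
  haveI := hF
  refine ⟨fun g => h79m_expo p ζ (x g * (α / g • α)), ?_, ?_⟩
  · refine ⟨F ⊔ IntermediateField.adjoin ℚ {α₀}, inferInstance, hLF.trans le_sup_left,
      fun g hg s hs => ?_⟩
    have hs1 : s ∈ GU F := IntermediateField.fixingSubgroup_antitone le_sup_left hs
    have hsα : s • α = α := by
      apply Units.ext
      have h1 : α₀ ∈ F ⊔ IntermediateField.adjoin ℚ {α₀} :=
        (le_sup_right : IntermediateField.adjoin ℚ {α₀} ≤ _)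
          (IntermediateField.mem_adjoin_simple_self ℚ α₀)
      have h2 : s α₀ = α₀ := hs ⟨α₀, h1⟩
      change s (α : Qb) = (α : Qb)
      rw [hαval]
      exact h2
    simp only
    rw [hxF g hg s hs1, mul_smul, hsα]
  · intro g hg h hh
    have hgh : g * h ∈ GU L := (GU L).mul_mem hg hh
    have h1 := hx'cob g hg h hh
    simp only [gmcob] at h1
    rw [hspec g hg, hspec h hh, hspec (g * h) hgh, smul_pow',
      h52g_smul_eq_of_mem hζL hg] at h1
    set fg := h79m_expo p ζ (x g * (α / g • α))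
    set fh := h79m_expo p ζ (x h * (α / h • α))
    set fgh := h79m_expo p ζ (x (g * h) * (α / (g * h) • α))
    rw [div_mul_eq_mul_div, div_eq_iff_eq_mul, ← h79m_pow_val_add hζ,
      ← h79m_pow_val_add hζ] at h1
    have h2 := h79m_pow_val_injective hζ h1
    simp only [Pi.zero_apply, gacob, zero_add]
    change c (g, h) = fh - fgh + fg
    linear_combination -h2

end Fermat.Agent.PT.Glob
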