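import Mathlib
import Fermat.Agent.PT.Glob.GIface

/-!
# W3-PT / PT-GLOB-BR leaf GLOB-MC-H90 (helper82): Hilbert 90 for continuous cocycles over `(ℚ, ℚ̄)`

`h82g_gmcH90 : GMCH90`: a continuous `1`-cocycle of `G_L` with values in `ℚ̄ˣ` is a
coboundary.  Port of helper81's local proof (`PT/Loc/H81H90.lean`): Noether's argument with the
finite set of embeddings `F → ℚ̄` fixing `L` (`F` a level of the cocycle) and Dedekind's
independence of characters.
-/

set_option autoImplicit false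

open scoped Classical

noncomputable section

namespace Fermat.Agent.PT.Glob

open Fermat.Agent.Bridge

/-- Every `ℚ`-embedding of a subfield of `Qb` extends to an automorphism of `Qb`. -/
theorem h82g_exists_lift (F : NFd) (ι : F →ₐ[ℚ] Qb) :
    ∃ g : GQ, ∀ y : F, g (y : Qb) = ι y := by
  have : Algebra.IsAlgebraic ℚ Qb := AlgebraicClosure.isAlgebraic ℚ
  obtain ⟨φ, hφ⟩ := IntermediateField.exists_algHom_of_splits (F := ℚ) (E := Qb)
    (K := Qb) (L := F)
    (fun s => ⟨(Algebra.IsAlgebraic.isAlgebraic s).isIntegral, IsAlgClosed.splits _⟩) ι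
  have hb := Algebra.IsAlgebraic.algHom_bijective φ
  refine ⟨AlgEquiv.ofBijective φ hb, fun y => ?_⟩
  have := DFunLike.congr_fun hφ y
  exact this

/-- a chosen lift of an embedding. -/
def h82g_lift (F : NFd) (ι : F →ₐ[ℚ] Qb) : GQ := (h82g_exists_lift F ι).choose

theorem h82g_lift_apply (F : NFd) (ι : F →ₐ[ℚ] Qb) (y : F) :
    h82g_lift F ι (y : Qb) = ι y := (h82g_exists_lift F ι).choose_spec y

/-- the embeddings of `F` fixing `K`. -/
def h82g_fix (K F : NFd) (ι : F →ₐ[ℚ] Qb) : Prop :=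
  ∀ y : F, (y : Qb) ∈ K → ι y = (y : Qb)

theorem h82g_lift_mem {K F : NFd} (hKF : K ≤ F) {ι : F →ₐ[ℚ] Qb} (hι : h82g_fix K F ι) :
    h82g_lift F ι ∈ GU K := by
  rw [IntermediateField.mem_fixingSubgroup_iff]
  intro y hy
  have := h82g_lift_apply F ι ⟨y, hKF hy⟩
  rw [hι ⟨y, hKF hy⟩ hy] at this
  exact this

/-- composition of an embedding with an automorphism. -/
def h82g_comp (F : NFd) (h : GQ) (ι : F →ₐ[ℚ] Qb) : F →ₐ[ℚ] Qb :=
  (h : Qb →ₐ[ℚ] Qb).comp ι

theorem h82g_comp_apply (F : NFd) (h : GQ) (ι : F →ₐ[ℚ] Qb) (y : F) :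
    h82g_comp F h ι y = h (ι y) := rfl

theorem h82g_comp_fix {K F : NFd} {h : GQ} (hh : h ∈ GU K) {ι : F →ₐ[ℚ] Qb}
    (hι : h82g_fix K F ι) : h82g_fix K F (h82g_comp F h ι) := by
  intro y hy
  rw [h82g_comp_apply, hι y hy]
  exact (IntermediateField.mem_fixingSubgroup_iff K h).1 hh _ hy

/-- two automorphisms with the same restriction to `F` differ by an element of `G_F`. -/
theorem h82g_inv_mul_mem (F : NFd) {g g' : GQ} (h : ∀ y : F, g (y : Qb) = g' (y : Qb)) :
    g⁻¹ * g' ∈ GU F := by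
  rw [IntermediateField.mem_fixingSubgroup_iff]
  intro y hy
  have := h ⟨y, hy⟩
  change g⁻¹ (g' y) = y
  rw [← this]
  exact g.symm_apply_apply y

/-- **GLOB-MC-H90.** -/
theorem h82g_gmcH90 : GMCH90 := by
  intro K _ x hcoc hcont
  obtain ⟨F, hFfin, hKF, hinv⟩ := hcont
  have : FiniteDimensional ℚ F := hFfin
  -- the coefficient attached to an embedding
  set c : (F →ₐ[ℚ] Qb) → Qb := fun ι => (x (h82g_lift F ι) : Qb) with hc
  set S : Finset (F →ₐ[ℚ] Qb) := Finset.univ.filter (fun ι => h82g_fix K F ι) with hS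
  have hmemS : ∀ ι, ι ∈ S ↔ h82g_fix K F ι := fun ι => by simp [hS]
  -- the transformation rule of the coefficients
  have hrule : ∀ h ∈ GU K, ∀ ι, h82g_fix K F ι →
      c (h82g_comp F h ι) = h (c ι) * (x h : Qb) := by
    intro h hh ι hι
    have h1 : h82g_lift F ι ∈ GU K := h82g_lift_mem hKF hι
    have h2 : h * h82g_lift F ι ∈ GU K := (GU K).mul_mem hh h1
    have h3 : (h * h82g_lift F ι)⁻¹ * h82g_lift F (h82g_comp F h ι) ∈ GU F := by
      apply h82g_inv_mul_mem
      intro y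
      rw [h82g_lift_apply, h82g_comp_apply]
      change h (h82g_lift F ι y) = _
      rw [h82g_lift_apply]
    have h4 := hinv _ h2 _ h3
    rw [mul_inv_cancel_left] at h4
    have h5 := hcoc h hh _ h1
    simp only [hc]
    rw [h4, h5]
    simp [AlgEquiv.smul_units_def]
  -- Dedekind independence
  have hli : LinearIndependent (Qb) (fun ι : F →ₐ[ℚ] Qb => (ι : F → Qb)) :=
    LinearIndependent.comp (ι' := F →ₐ[ℚ] Qb)
      (linearIndependent_monoidHom F (Qb)) (fun ι => (ι : F →* Qb))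
      (fun a b h => by ext y; exact DFunLike.ext_iff.1 h y)
  have hval : h82g_fix K F F.val := fun y _ => rfl
  obtain ⟨z, hz⟩ : ∃ z : F, ∑ ι ∈ S, c ι * ι z ≠ 0 := by
    by_contra hcon
    have hall : ∀ z : F, ∑ ι ∈ S, c ι * ι z = 0 := by
      intro z
      by_contra hne
      exact hcon ⟨z, hne⟩
    have h0 := Fintype.linearIndependent_iff.1 hli (fun ι => if ι ∈ S then c ι else 0) (by
      funext z
      simp only [Finset.sum_apply, Pi.smul_apply, smul_eq_mul, Pi.zero_apply, ite_mul, zero_mul]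
      rw [← Finset.sum_filter]
      have : Finset.univ.filter (fun ι => ι ∈ S) = S := by
        ext ι; simp
      rw [this]
      exact hall z) F.val
    rw [if_pos ((hmemS _).2 hval)] at h0
    exact Units.ne_zero _ h0
  refine ⟨(Units.mk0 _ hz)⁻¹, fun h hh => ?_⟩
  -- the sum is an eigenvector
  have hsum : h (∑ ι ∈ S, c ι * ι z) * (x h : Qb) = ∑ ι ∈ S, c ι * ι z := by
    rw [map_sum, Finset.sum_mul]
    have hinvmem : h⁻¹ ∈ GU K := (GU K).inv_mem hh
    refine Finset.sum_bij' (fun ι _ => h82g_comp F h ι) (fun ι _ => h82g_comp F h⁻¹ ι)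
      ?_ ?_ ?_ ?_ ?_
    · intro ι hι
      exact (hmemS _).2 (h82g_comp_fix hh ((hmemS _).1 hι))
    · intro ι hι
      exact (hmemS _).2 (h82g_comp_fix hinvmem ((hmemS _).1 hι))
    · intro ι _
      ext y
      simp [h82g_comp_apply]
    · intro ι _
      ext y
      simp [h82g_comp_apply]
    · intro ι hι
      rw [hrule h hh ι ((hmemS _).1 hι), h82g_comp_apply, map_mul]
      ring
  have hne : h (∑ ι ∈ S, c ι * ι z) ≠ 0 := by
    intro h0
    rw [h0, zero_mul] at hsum
    exact hz hsum.symm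
  apply Units.ext
  simp only [AlgEquiv.smul_units_def, map_inv, div_inv_eq_mul, Units.val_mul,
    Units.val_inv_eq_inv_val, Units.coe_map, Units.val_mk0, MonoidHom.coe_coe]
  generalize (∑ ι ∈ S, c ι * ι z) = A at hsum hne hz ⊢
  calc (x h : Qb) = (h A)⁻¹ * (h A * (x h : Qb)) := by
        rw [← mul_assoc, inv_mul_cancel₀ hne, one_mul]
    _ = (h A)⁻¹ * A := by rw [hsum]

end Fermat.Agent.PT.Glob
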