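import Mathlib
import Fermat.Agent.PT.Glob.GIface
import Fermat.Agent.PT.Glob.MC.H52Mu
import Fermat.Agent.PT.Glob.MC.H82H90

/-!
# W3-PT / PT-GLOB-BR, leaf GLOB-MC-MU, unconditional (helper52)

`h52g_gmcMu : GMCMu` from `h52g_gmcMu_of` and Hilbert 90 over `(ℚ, ℚ̄)` (`h82g_gmcH90`, helper82).
-/

set_option autoImplicit false

namespace Fermat.Agent.PT.Glob

/-- **GMC-MU**, unconditional. -/
theorem h52g_gmcMu : GMCMu := h52g_gmcMu_of h82g_gmcH90

end Fermat.Agent.PT.Glob
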