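import Mathlib
import Fermat.Agent.PT.Glob.GBasic
import Fermat.Agent.PT.Glob.GIface
import Fermat.Agent.PT.Loc.H77InfResAbs

/-!
# W3-PT / PT-GLOB-BR leaf GLOB-MC-INFRES (helper95): port of helper77's `MC-INFRES-PER`

`h95g_gmcInfResPer_of : GMCH90 → GMCInfResPer` : a continuous `2`-cocycle of `G_L` with values in
`ℚ̄ˣ` which is a continuous coboundary on `G_K`, `K/L` cyclic, is cohomologous to a carry
cocycle `gcarry K σ n b` with `b ∈ L`.

The group theory is helper77's abstract `h77p_infres_abs` (`PT/Loc/H77InfResAbs.lean`, Mathlib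
only); here the abstract datum is instantiated with `Γ = GQ`, `M = ℚ̄ˣ`, `G = G_L`, `H = G_K`,
levels `G_F` for `F ⊇ K` finite.
-/

set_option autoImplicit false
set_option linter.style.haveILetI false

open scoped Classical

noncomputable section

namespace Fermat.Agent.PT.Glob

open Fermat.Agent.Bridge Fermat.Agent.PT.Loc

lemma h95g_isAlgebraic : Algebra.IsAlgebraic ℚ Qb := AlgebraicClosure.isAlgebraic ℚ

lemma h95g_isGalois : IsGalois ℚ Qb :=
  haveI : IsAlgClosure ℚ Qb := ⟨inferInstance, AlgebraicClosure.isAlgebraic ℚ⟩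
  IsAlgClosure.isGalois ℚ Qb



/-- The levels: `G_F` for the finite `F ⊇ K₁`. -/
def h95g_Lv (K₁ : NFd) (N : Subgroup (GQ)) : Prop :=
  ∃ F : NFd, FiniteDimensional ℚ F ∧ K₁ ≤ F ∧ N = GU F

lemma h95g_GU_le {K F : NFd} (h : K ≤ F) : GU F ≤ GU K :=
  IntermediateField.fixingSubgroup_antitone h

/-- The cyclic datum of `IsCyc`. -/
lemma h95g_cyc_of_isCyc {K K₁ : NFd} {n : ℕ} {σ : GQ} (hc : GIsCyc K K₁ n σ) :
    h77p_Cyc (GU K) (GU K₁) σ n (gcycIdx K₁ σ n) := by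
  have hex : ∀ g ∈ GU K, ∃ i, i < n ∧ (σ ^ i)⁻¹ * g ∈ GU K₁ := hc.gen
  have hidx : ∀ g (h : ∃ i, i < n ∧ (σ ^ i)⁻¹ * g ∈ GU K₁), gcycIdx K₁ σ n g = Nat.find h := by
    intro g h
    unfold gcycIdx
    rw [dif_pos h]
  refine ⟨h95g_GU_le hc.le, hc.mem, hc.normal, hc.pos, ?_, ?_, ?_⟩
  · intro g hg
    rw [hidx g (hex g hg)]
    exact (Nat.find_spec (hex g hg)).1
  · intro g hg
    rw [hidx g (hex g hg)]
    exact (Nat.find_spec (hex g hg)).2
  · intro g hg i hi hmem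
    rw [hidx g (hex g hg)]
    have hle : Nat.find (hex g hg) ≤ i := Nat.find_min' _ ⟨hi, hmem⟩
    have hj := (Nat.find_spec (hex g hg)).2
    by_contra hne
    have hlt : Nat.find (hex g hg) < i := lt_of_le_of_ne hle hne
    have h1 : σ ^ (i - Nat.find (hex g hg)) ∈ GU K₁ := by
      have h2 := (GU K₁).mul_mem hj ((GU K₁).inv_mem hmem)
      have e : (σ ^ Nat.find (hex g hg))⁻¹ * g * ((σ ^ i)⁻¹ * g)⁻¹ =
          σ ^ (i - Nat.find (hex g hg)) := by
        have e1 : σ ^ i = σ ^ Nat.find (hex g hg) * σ ^ (i - Nat.find (hex g hg)) := by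
          rw [← pow_add]
          congr 1
          omega
        rw [e1]
        group
      rwa [e] at h2
    exact hc.ord _ (by omega) (by omega) h1

/-- The level system of the finite extensions of `K₁`. -/
lemma h95g_lvSys (K K₁ : NFd) [FiniteDimensional ℚ K₁] :
    h77p_LvSys (GU K) (GU K₁) (h95g_Lv K₁) Qbˣ := by
  refine ⟨?_, ?_, ?_, ?_⟩
  · rintro N ⟨F, -, hF, rfl⟩
    exact h95g_GU_le hF
  · rintro N N' ⟨F, hFf, hF, rfl⟩ ⟨F', hF'f, hF', rfl⟩
    refine ⟨GU (F ⊔ F'), ⟨F ⊔ F', ?_, le_trans hF le_sup_left, rfl⟩, ?_, ?_⟩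
    · exact IntermediateField.finiteDimensional_sup F F'
    · exact h95g_GU_le le_sup_left
    · exact h95g_GU_le le_sup_right
  · intro m
    haveI := h95g_isAlgebraic
    have hint : IsIntegral ℚ (m : Qb) := Algebra.IsIntegral.isIntegral _
    have : FiniteDimensional ℚ (IntermediateField.adjoin ℚ {(m : Qb)}) :=
      IntermediateField.adjoin.finiteDimensional hint
    refine ⟨GU (K₁ ⊔ IntermediateField.adjoin ℚ {(m : Qb)}),
      ⟨_, IntermediateField.finiteDimensional_sup _ _, le_sup_left, rfl⟩, ?_⟩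
    intro t ht
    have ht' := h95g_GU_le (le_sup_right : IntermediateField.adjoin ℚ {(m : Qb)} ≤ _) ht
    rw [IntermediateField.mem_fixingSubgroup_iff] at ht'
    apply Units.ext
    exact ht' _ (IntermediateField.mem_adjoin_simple_self ℚ (m : Qb))
  · rintro h - N ⟨F, hFf, hF, rfl⟩
    have := hFf
    refine ⟨GU (K₁ ⊔ F.map (h : Qb →ₐ[ℚ] Qb)),
      ⟨_, IntermediateField.finiteDimensional_sup _ _, le_sup_left, rfl⟩, ?_⟩
    intro t ht
    have ht' := h95g_GU_le (le_sup_right : F.map (h : Qb →ₐ[ℚ] Qb) ≤ _) ht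
    rw [IntermediateField.mem_fixingSubgroup_iff] at ht' ⊢
    intro x hx
    have h1 : t (h x) = h x := ht' _ ((IntermediateField.mem_map F).2 ⟨x, hx, rfl⟩)
    change h⁻¹ (t (h x)) = x
    rw [h1]
    exact h.symm_apply_apply x

/-- `GCont1 K` gives the abstract continuity with respect to the finite extensions of `K₁ ⊇ K`. -/
lemma h95g_C1_of_cont1 {K K₁ : NFd} [FiniteDimensional ℚ K₁]
    {x : GQ → Qbˣ} (hx : GCont1 K x) : h77p_C1 (h95g_Lv K₁) (GU K) x := by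
  obtain ⟨F, hFf, -, h⟩ := hx
  have := hFf
  refine ⟨GU (K₁ ⊔ F), ⟨_, IntermediateField.finiteDimensional_sup _ _, le_sup_left, rfl⟩, ?_⟩
  intro g hg t ht
  exact h g hg t (h95g_GU_le le_sup_right ht)

theorem h95g_gmcInfResPer_of (h90 : GMCH90) : GMCInfResPer := by
  intro K K₁ _ n σ hcyc c hcoc hcont hres
  have : FiniteDimensional ℚ K₁ := hcyc.fin
  have hC := h95g_cyc_of_isCyc hcyc
  have hL := h95g_lvSys K K₁
  -- Hilbert 90 on `G_{K₁}`
  have h90' : ∀ u : GQ → Qbˣ,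
      (∀ s ∈ GU K₁, ∀ s' ∈ GU K₁, u (s * s') = s • u s' * u s) →
      h77p_C1 (h95g_Lv K₁) (GU K₁) u → ∃ a : Qbˣ, ∀ s ∈ GU K₁, u s = s • a / a := by
    intro u hu hcu
    refine h90 K₁ u hu ?_
    obtain ⟨N, ⟨F, hFf, hF, rfl⟩, h⟩ := hcu
    exact ⟨F, hFf, hF, h⟩
  -- continuity of `c`
  obtain ⟨F, hFf, hKF, hcF⟩ := hcont
  have := hFf
  have hlev : h95g_Lv K₁ (GU (K₁ ⊔ F)) :=
    ⟨_, IntermediateField.finiteDimensional_sup _ _, le_sup_left, rfl⟩
  have hR1 : h77p_R1 (h95g_Lv K₁) (GU K) c := by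
    intro h hh
    refine ⟨GU (K₁ ⊔ F), hlev, fun g hg t ht => ?_⟩
    have := hcF g hg h hh t (h95g_GU_le le_sup_right ht) 1 (GU F).one_mem
    rwa [mul_one] at this
  have hR2 : h77p_R2 (h95g_Lv K₁) (GU K) c := by
    refine ⟨GU (K₁ ⊔ F), hlev, fun g hg h hh t ht => ?_⟩
    have := hcF g hg h hh 1 (GU F).one_mem t (h95g_GU_le le_sup_right ht)
    rwa [mul_one] at this
  -- the trivialisation on `G_{K₁}`
  obtain ⟨x, hxc, hx⟩ := hres
  have hx1 : h77p_C1 (h95g_Lv K₁) (GU K₁) x := by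
    obtain ⟨F', hF'f, hF', h⟩ := hxc
    exact ⟨GU F', ⟨F', hF'f, hF', rfl⟩, h⟩
  have hcx : ∀ s ∈ GU K₁, ∀ s' ∈ GU K₁, c (s, s') = h77p_cob x (s, s') := by
    intro s hs s' hs'
    have := hx s hs s' hs'
    rw [Pi.one_apply, one_mul] at this
    exact this
  obtain ⟨b, hb, w, hw, hcw⟩ := h77p_infres_abs hC hL h90' c hcoc hR1 hR2 x hx1 hcx
  refine ⟨b, ?_, w, ?_, ?_⟩
  · haveI := h95g_isGalois
    have hK := InfiniteGalois.fixedField_fixingSubgroup K
    rw [← hK, IntermediateField.mem_fixedField_iff]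
    intro g hg
    have := congrArg (fun u : Qbˣ => (u : Qb)) (hb g hg)
    exact this
  · obtain ⟨N, ⟨F', hF'f, hF', rfl⟩, h⟩ := hw
    exact ⟨F', hF'f, le_trans hcyc.le hF', h⟩
  · intro g hg h hh
    exact hcw g hg h hh

end Fermat.Agent.PT.Glob
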