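import Mathlib
import Fermat.Agent.PT.Glob.MC.H95InfRes
import Fermat.Agent.PT.Glob.MC.H82H90

/-!
# W3-PT / PT-GLOB-BR leaf GLOB-MC-INFRES, unconditional form (helper95)

`h95g_gmcInfResPer : GMCInfResPer`, from `h95g_gmcInfResPer_of` and Hilbert 90 over `(ℚ, ℚ̄)`
(`h82g_gmcH90`, helper82).
-/

set_option autoImplicit false

namespace Fermat.Agent.PT.Glob

theorem h95g_gmcInfResPer : GMCInfResPer := h95g_gmcInfResPer_of h82g_gmcH90

end Fermat.Agent.PT.Glob
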