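import Mathlib
import Fermat.Agent.PT.Glob.GIface

/-!
# W3-PT / PT-GLOB (helper43): calculus of `gcycIdx` for a global cyclic extension

Port of `PT/Loc/MC/H65Idx.lean` (helper65) to the pair `(ℚ, ℚ̄)`.

For `GIsCyc L K n σ`: `gcycIdx K σ n` is the isomorphism `G_L / G_K ≃ ℤ/n` (as a function with
values in `{0, …, n-1}`), additive modulo `n`, and invariant under right translation by `G_K`.
-/

set_option autoImplicit false

open scoped Classical

noncomputable section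

namespace Fermat.Agent.PT.Glob

open Fermat.Agent.Bridge

variable {L K : NFd} {n : ℕ} {σ : GQ}

theorem h43g_GU_le (hc : GIsCyc L K n σ) : GU K ≤ GU L :=
  IntermediateField.fixingSubgroup_antitone hc.le

theorem h43g_pow_mem_GU (hc : GIsCyc L K n σ) (i : ℕ) : σ ^ i ∈ GU L :=
  Subgroup.pow_mem _ hc.mem i

/-- `σ ^ n ∈ G_K`. -/
theorem h43g_pow_n_mem (hc : GIsCyc L K n σ) : σ ^ n ∈ GU K := by
  obtain ⟨i, hi, hmem⟩ := hc.gen (σ ^ n) (h43g_pow_mem_GU hc n)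
  have h1 : (σ ^ i)⁻¹ * σ ^ n = σ ^ (n - i) := by
    rw [inv_mul_eq_iff_eq_mul, ← pow_add]
    congr 1
    omega
  rw [h1] at hmem
  by_cases hi0 : i = 0
  · subst hi0
    simpa using hmem
  · exact absurd hmem (hc.ord (n - i) (by omega) (by omega))

/-- `(σ ^ n) ^ d ∈ G_K`. -/
theorem h43g_pow_n_mul_mem (hc : GIsCyc L K n σ) (d : ℕ) : σ ^ (n * d) ∈ GU K := by
  rw [pow_mul]
  exact Subgroup.pow_mem _ (h43g_pow_n_mem hc) d

theorem h43g_idx_spec (hc : GIsCyc L K n σ) {g : GQ} (hg : g ∈ GU L) :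
    gcycIdx K σ n g < n ∧ (σ ^ gcycIdx K σ n g)⁻¹ * g ∈ GU K := by
  have h := hc.gen g hg
  unfold gcycIdx
  rw [dif_pos h]
  exact Nat.find_spec h

theorem h43g_idx_lt (hc : GIsCyc L K n σ) {g : GQ} (hg : g ∈ GU L) :
    gcycIdx K σ n g < n := (h43g_idx_spec hc hg).1

theorem h43g_idx_mem (hc : GIsCyc L K n σ) {g : GQ} (hg : g ∈ GU L) :
    (σ ^ gcycIdx K σ n g)⁻¹ * g ∈ GU K := (h43g_idx_spec hc hg).2

/-- uniqueness of the index. -/
theorem h43g_idx_unique_aux (hc : GIsCyc L K n σ) {g : GQ} {a b : ℕ} (hab : a < b) (hb : b < n)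
    (hga : (σ ^ a)⁻¹ * g ∈ GU K) (hgb : (σ ^ b)⁻¹ * g ∈ GU K) : False := by
  have h1 := (GU K).mul_mem hga ((GU K).inv_mem hgb)
  have h2 : (σ ^ a)⁻¹ * g * ((σ ^ b)⁻¹ * g)⁻¹ = σ ^ (b - a) := by
    have hb' : σ ^ b = σ ^ a * σ ^ (b - a) := by
      rw [← pow_add]
      congr 1
      omega
    rw [hb']
    group
  rw [h2] at h1
  exact hc.ord (b - a) (by omega) (by omega) h1

theorem h43g_idx_unique (hc : GIsCyc L K n σ) {g : GQ} {a b : ℕ} (ha : a < n) (hb : b < n)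
    (hga : (σ ^ a)⁻¹ * g ∈ GU K) (hgb : (σ ^ b)⁻¹ * g ∈ GU K) : a = b := by
  rcases Nat.lt_trichotomy a b with h | h | h
  · exact (h43g_idx_unique_aux hc h hb hga hgb).elim
  · exact h
  · exact (h43g_idx_unique_aux hc h ha hgb hga).elim

/-- characterisation of the index. -/
theorem h43g_idx_eq (hc : GIsCyc L K n σ) {g : GQ} (hg : g ∈ GU L) {a : ℕ} (ha : a < n)
    (hga : (σ ^ a)⁻¹ * g ∈ GU K) : gcycIdx K σ n g = a :=
  h43g_idx_unique hc (h43g_idx_lt hc hg) ha (h43g_idx_mem hc hg) hga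

/-- the index of an element of `G_K` is `0`. -/
theorem h43g_idx_of_mem (hc : GIsCyc L K n σ) {s : GQ} (hs : s ∈ GU K) :
    gcycIdx K σ n s = 0 :=
  h43g_idx_eq hc (h43g_GU_le hc hs) hc.pos (by simpa using hs)

/-- membership in the coset `σ ^ m G_K` for arbitrary `m`. -/
theorem h43g_idx_eq_mod (hc : GIsCyc L K n σ) {g : GQ} (hg : g ∈ GU L) {m : ℕ}
    (hgm : (σ ^ m)⁻¹ * g ∈ GU K) : gcycIdx K σ n g = m % n := by
  refine h43g_idx_eq hc hg (Nat.mod_lt _ hc.pos) ?_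
  have h1 : σ ^ m = σ ^ (m % n) * σ ^ (n * (m / n)) := by
    rw [← pow_add, Nat.mod_add_div]
  have h2 : (σ ^ (m % n))⁻¹ * g = σ ^ (n * (m / n)) * ((σ ^ m)⁻¹ * g) := by
    rw [h1]
    group
  rw [h2]
  exact (GU K).mul_mem (h43g_pow_n_mul_mem hc _) hgm

/-- the index is additive modulo `n`. -/
theorem h43g_idx_mul (hc : GIsCyc L K n σ) {g h : GQ} (hg : g ∈ GU L) (hh : h ∈ GU L) :
    gcycIdx K σ n (g * h) = (gcycIdx K σ n g + gcycIdx K σ n h) % n := by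
  refine h43g_idx_eq_mod hc ((GU L).mul_mem hg hh) ?_
  set i := gcycIdx K σ n g
  set j := gcycIdx K σ n h
  have hs := h43g_idx_mem hc hg
  have ht := h43g_idx_mem hc hh
  have hn := hc.normal ((σ ^ j)⁻¹) ((GU L).inv_mem (h43g_pow_mem_GU hc j)) _ hs
  have h1 : (σ ^ (i + j))⁻¹ * (g * h) =
      ((σ ^ j)⁻¹ * ((σ ^ i)⁻¹ * g) * ((σ ^ j)⁻¹)⁻¹) * ((σ ^ j)⁻¹ * h) := by
    rw [pow_add]
    group
  rw [h1]
  exact (GU K).mul_mem hn ht

/-- the index is invariant under right translation by `G_K`. -/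
theorem h43g_idx_mul_right (hc : GIsCyc L K n σ) {g s : GQ} (hg : g ∈ GU L)
    (hs : s ∈ GU K) : gcycIdx K σ n (g * s) = gcycIdx K σ n g := by
  rw [h43g_idx_mul hc hg (h43g_GU_le hc hs), h43g_idx_of_mem hc hs, add_zero,
    Nat.mod_eq_of_lt (h43g_idx_lt hc hg)]

/-- the carry relation: `idx g + idx h = idx (g h) + n · [n ≤ idx g + idx h]`. -/
theorem h43g_idx_add (hc : GIsCyc L K n σ) {g h : GQ} (hg : g ∈ GU L) (hh : h ∈ GU L) :
    gcycIdx K σ n g + gcycIdx K σ n h =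
      gcycIdx K σ n (g * h) + if n ≤ gcycIdx K σ n g + gcycIdx K σ n h then n else 0 := by
  rw [h43g_idx_mul hc hg hh]
  have hi := h43g_idx_lt hc hg
  have hj := h43g_idx_lt hc hh
  split_ifs with hle
  · have : (gcycIdx K σ n g + gcycIdx K σ n h) % n = gcycIdx K σ n g + gcycIdx K σ n h - n := by
      rw [Nat.mod_eq_sub_mod hle, Nat.mod_eq_of_lt (by omega)]
    omega
  · rw [Nat.mod_eq_of_lt (by omega)]
    rfl

end Fermat.Agent.PT.Glob

end
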