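import Mathlib
import Fermat.Agent.PT.Glob.MC.H43Idx

/-!
# W3-PT / PT-GLOB (helper43): the global carry cocycle

Port of `PT/Loc/MC/H65Carry.lean` (helper65) to the pair `(ℚ, ℚ̄)`:
`h43g_gmcCarry : GMCCarry` — the carry cocycle of a cyclic extension is a continuous
`2`-cocycle on `G_L`.
-/

set_option autoImplicit false

open scoped Classical

noncomputable section

namespace Fermat.Agent.PT.Glob

open Fermat.Agent.Bridge

variable {L K : NFd} {n : ℕ} {σ : GQ}

/-- an element of `G_L` fixes a unit lying in `L`. -/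
theorem h43g_smul_unit_of_mem {L : NFd} {g : GQ} (hg : g ∈ GU L) {b : Qbˣ}
    (hb : (b : Qb) ∈ L) : g • b = b := by
  apply Units.ext
  rw [AlgEquiv.smul_units_def, Units.coe_map]
  exact (IntermediateField.mem_fixingSubgroup_iff L g).mp hg _ hb

theorem h43g_carry_apply (K : NFd) (σ : GQ) (n : ℕ) (b : Qbˣ) (g h : GQ) :
    gcarry K σ n b (g, h) = if n ≤ gcycIdx K σ n g + gcycIdx K σ n h then b else 1 := rfl

/-- the carry cocycle as a power of `b`. -/
theorem h43g_carry_eq_pow (K : NFd) (σ : GQ) (n : ℕ) (b : Qbˣ) (g h : GQ) :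
    gcarry K σ n b (g, h) = b ^ (if n ≤ gcycIdx K σ n g + gcycIdx K σ n h then 1 else 0) := by
  rw [h43g_carry_apply]
  split_ifs <;> simp

/-- `G_L` acts trivially on the values of the carry cocycle. -/
theorem h43g_smul_carry {b : Qbˣ} (hb : (b : Qb) ∈ L)
    {g : GQ} (hg : g ∈ GU L) (y : GQ × GQ) :
    g • gcarry K σ n b y = gcarry K σ n b y := by
  unfold gcarry
  split_ifs
  · exact h43g_smul_unit_of_mem hg hb
  · exact smul_one g

/-- **GLOB-MC-CARRY**, cocycle part. -/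
theorem h43g_carry_mcoc2 (hc : GIsCyc L K n σ) {b : Qbˣ} (hb : (b : Qb) ∈ L) :
    GMCoc2 L (gcarry K σ n b) := by
  intro g hg h hh j hj
  rw [h43g_smul_carry hb hg]
  have hgh := (GU L).mul_mem hg hh
  have hhj := (GU L).mul_mem hh hj
  have e1 := h43g_idx_add hc hg hh
  have e2 := h43g_idx_add hc hh hj
  have e3 := h43g_idx_add hc hgh hj
  have e4 := h43g_idx_add hc hg hhj
  have hassoc : gcycIdx K σ n (g * h * j) = gcycIdx K σ n (g * (h * j)) := by rw [mul_assoc]
  rw [hassoc] at e3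
  have hi := h43g_idx_lt hc hg
  have hj' := h43g_idx_lt hc hh
  have hk := h43g_idx_lt hc hj
  have hgh' := h43g_idx_lt hc hgh
  have hhj' := h43g_idx_lt hc hhj
  have hn := hc.pos
  simp only [h43g_carry_eq_pow, ← pow_add]
  congr 1
  split_ifs at e1 e2 e3 e4 ⊢ <;> omega

/-- **GLOB-MC-CARRY**, continuity part. -/
theorem h43g_carry_cont2 (hc : GIsCyc L K n σ) (b : Qbˣ) :
    GCont2 L (gcarry K σ n b) := by
  refine ⟨K, hc.fin, hc.le, ?_⟩
  intro g hg g' hg' s hs s' hs'
  rw [h43g_carry_apply, h43g_carry_apply, h43g_idx_mul_right hc hg hs,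
    h43g_idx_mul_right hc hg' hs']

/-- **GLOB-MC-CARRY**. -/
theorem h43g_gmcCarry : GMCCarry := by
  intro L K _ n σ b hc hb
  exact ⟨h43g_carry_mcoc2 hc hb, h43g_carry_cont2 hc b⟩

end Fermat.Agent.PT.Glob

end
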